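import Mathlib
import Fermat.Agent.LT.T7.H589.StepTSpec

/-!
# Row LT, tower T7, leaf ST.1 `ST589.PlaceC589` (registry row 3001): proof by helper861

OFF-MAIN, additive (new names only, suffix `861`, namespace `Fermat.Agent.LT.T7.H861`).
Spec: `T7/H589/StepTSpec.lean` (helper589, sha256 f2cef127), byte-identical copy.

    placeC861 (K K') : ST589.PlaceC589 K K'                     (VERBATIM, UNCONDITIONAL)

Proof.  `v = w ∩ 𝓞_K` (`Ideal.under_ne_bot`), the residue degree is the inertia degree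
(`Ideal.absNorm_eq_pow_inertiaDeg'_of_liesOver`); `𝔫 ≤ v` gives `𝔫 𝓞_{K'} ≤ w` by `PlaceOver`.
-/

set_option autoImplicit false

open IsDedekindDomain NumberField

namespace Fermat.Agent.LT.T7.H861

section TwoFields

variable {K K' : Type} [Field K] [NumberField K] [Field K'] [NumberField K'] [Algebra K K']

/-- The place of `K` under the place `w` of `K'`. -/
def underT861 (w : HeightOneSpectrum (𝓞 K')) : HeightOneSpectrum (𝓞 K) where
  asIdeal := Ideal.comap (algebraMap (𝓞 K) (𝓞 K')) w.asIdeal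
  isPrime := Ideal.comap_isPrime _ _
  ne_bot := Ideal.under_ne_bot (𝓞 K) w.ne_bot

theorem underT861_asIdeal (w : HeightOneSpectrum (𝓞 K')) :
    (underT861 (K := K) w).asIdeal = Ideal.comap (algebraMap (𝓞 K) (𝓞 K')) w.asIdeal := rfl

theorem placeOver_underT861 (w : HeightOneSpectrum (𝓞 K')) :
    PlaceOver K K' (underT861 (K := K) w) w := by
  intro x y hxy
  have hy : y = algebraMap (𝓞 K) (𝓞 K') x := by
    apply NumberField.RingOfIntegers.ext
    rw [hxy]
    rfl
  subst hy
  exact Ideal.mem_comap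

theorem absNorm_underT861 (w : HeightOneSpectrum (𝓞 K')) :
    ∃ d : ℕ, Ideal.absNorm w.asIdeal = Ideal.absNorm (underT861 (K := K) w).asIdeal ^ d := by
  haveI : w.asIdeal.LiesOver (underT861 (K := K) w).asIdeal := ⟨rfl⟩
  exact ⟨_, Ideal.absNorm_eq_pow_inertiaDeg'_of_liesOver w.asIdeal
    (underT861 (K := K) w).asIdeal (underT861 (K := K) w).isPrime (underT861 (K := K) w).ne_bot⟩

variable (K K')

/-- **LEAF ST.1 `PlaceC589`.** -/
theorem placeC861 : ST589.PlaceC589 K K' := by
  refine ⟨?_, ?_⟩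
  · intro ℓ _ w
    obtain ⟨d, hd⟩ := absNorm_underT861 (K := K) w
    exact ⟨underT861 (K := K) w, d, placeOver_underT861 w, hd⟩
  · intro 𝔫 v w hvw hdvd
    rw [Ideal.dvd_iff_le] at hdvd ⊢
    change Ideal.map (algebraMap (𝓞 K) (𝓞 K')) 𝔫 ≤ w.asIdeal
    rw [Ideal.map_le_iff_le_comap]
    intro x hx
    exact (hvw x (algebraMap (𝓞 K) (𝓞 K') x) rfl).1 (hdvd hx)

end TwoFields

end Fermat.Agent.LT.T7.H861
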